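/-
S59: the hypothesis carried through the lowering steps.
-/
import Fermat.Agent.R59.Mazur.Basic
import Fermat.Prelude.Def_FLTPrelim_ModularRep
import Mathlib.NumberTheory.Padics.PadicVal.Basic

set_option autoImplicit false

namespace Fermat.Agent.R59

open WeierstrassCurve

/-- For `p = 3` a prime `r ≡ 2 (mod 3)` of `m`, good for `W`, with `a_r` prime to `3`: every system
congruent to `W` is old at `r`, and no level divisible by `r` has elliptic points of order three. -/
def NeatFor (W : WeierstrassCurve ℤ) (p m : ℕ) : Prop :=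
  p = 3 → ∃ r : ℕ, r.Prime ∧ r ∣ m ∧ r % 3 = 2 ∧ ¬ (r : ℤ) ∣ W.Δ ∧ ¬ (3 : ℤ) ∣ W.apOfModel r

end Fermat.Agent.R59
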