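/-
S59, unit F1p: `p` can be removed from a squarefree level when `W[p]` is flat at `p`.

With no system at level `m`, eigenclasses with a trivialisation modulo the uniformiser climb past
the critical level, so inertia is `ω` on them; inertia differences are such classes, so the trace on
inertia is `1 + ω`; the class fixed by a tame element is one too (constant exponent), which is absurd.
-/
import Fermat.Agent.R59.Lower.Defs
import Fermat.Agent.R59.Lower.AtP.Good
import Fermat.Agent.R59.Mazur.Eigen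
import Fermat.Agent.R59.Mazur.NonEis
import Fermat.Agent.R59.Mazur.Main
import Fermat.Agent.R59.Mazur.Three.Lift
import Fermat.Agent.LL.Mazur.EigenLower

set_option autoImplicit false
set_option linter.style.haveILetI false
set_option linter.unusedSectionVars false

noncomputable section

namespace Fermat.Agent.R59

open IsLocalRing CongruenceSubgroup
open WeierstrassCurve WeierstrassCurve.Affine.Point
open scoped WeierstrassCurve.Affine
open Fermat.Agent.GalRep Fermat.Agent.GalRep.InertiaBase Fermat.Agent.GalRep.Semistable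
open Fermat.Agent.NewVec
open Fermat.Agent.Galois (GQ)

local notation "Qb" => AlgebraicClosure ℚ

attribute [local irreducible] kummerGalois

namespace AtP

/-- Multiplication by the value of a residue. -/
theorem val_nsmul {p : ℕ} [NeZero p] {V : Type*} [AddCommGroup V] [Module (ZMod p) V] (c : ZMod p)
    (v : V) : c.val • v = c • v := by
  conv_rhs => rw [← ZMod.natCast_zmod_val c]
  exact (Nat.cast_smul_eq_nsmul (ZMod p) _ v).symm

end AtP

set_option maxHeartbeats 1600000 in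
set_option synthInstance.maxHeartbeats 400000 in
/-- `W[p]` is flat at `p` exactly when `p` divides the valuation of the discriminant; then `p` can
be removed from the level. -/
theorem lower_at_p (W : WeierstrassCurve ℤ) (hΔ : W.Δ ≠ 0) (hW : W.IsSemistableModel) {p : ℕ}
    [Fact p.Prime] (hp : p = 3 ∨ p = 5) (hirr : W.ModRepIsIrreducible p) {m : ℕ}
    (hsq : Squarefree (p * m)) (hflat : p ∣ padicValInt p W.Δ) (hneat : NeatFor W p m)
    (hres : W.IsResiduallyModularOfLevel p (p * m)) :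
    W.IsResiduallyModularOfLevel p m := by
  classical
  have hq : p.Prime := Fact.out
  have hp2 : p ≠ 2 := by omega
  have hm : 0 < m := Nat.pos_of_ne_zero (right_ne_zero_of_mul hsq.ne_zero)
  have hpm : ¬ p ∣ m := fun h => hq.not_isUnit (Nat.isUnit_iff.mpr
    (Nat.isUnit_iff.mp (hsq p (mul_dvd_mul_left p h))))
  haveI := isElliptic_generic W hΔ
  haveI : NeZero p := ⟨hq.ne_zero⟩
  haveI : NeZero m := ⟨hm.ne'⟩
  haveI : NeZero (p * m) := ⟨Nat.mul_ne_zero hq.ne_zero hm.ne'⟩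
  obtain ⟨f, 𝔪, hf, h𝔪, hp𝔪, hcong⟩ := hres
  by_contra hcon
  set S : Finset ℕ := insert p (W.Δ.natAbs.primeFactors ∪ m.primeFactors) with hSdef
  have hpS : p ∈ S := Finset.mem_insert_self _ _
  have hmS : ∀ r : ℕ, r.Prime → r ∣ m → r ∈ S := fun r hr hrm =>
    Finset.mem_insert_of_mem (Finset.mem_union_right _ (Nat.mem_primeFactors.mpr ⟨hr, hrm, hm.ne'⟩))
  have hS : ∀ r : ℕ, r.Prime → r ∉ S → W.IsGoodPrimeFor r ∧ r ≠ p := fun r hr hrS =>
    ⟨fun h => hrS (Finset.mem_insert_of_mem (Finset.mem_union_left _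
      (Nat.mem_primeFactors.mpr ⟨hr, Int.natCast_dvd.mp h, Int.natAbs_ne_zero.mpr hΔ⟩))),
      fun h => hrS (h ▸ hpS)⟩
  have hneat' : p = 3 → ∃ r : ℕ, r.Prime ∧ r ∣ m ∧ r % 3 = 2 := fun h => by
    obtain ⟨r, hr, hrm, hr3, -⟩ := hneat h
    exact ⟨r, hr, hrm, hr3⟩
  -- nothing at level `m`
  have hno : ∀ χ' : ParHom m (ZMod p), (∀ l : GoodPrime m, (l : ℕ) ∉ S →
      heckeHomAt l χ' = W.apOfModel (l : ℕ) • χ') → χ' = 0 := fun χ' h => by
    by_contra h0
    obtain ⟨θ, hθ⟩ : ∃ θ : CuspForm.heckeAlgebra m 2 (↑S : Set ℕ) →+* ZMod p,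
        ∀ (ℓ : ℕ) (hℓ : ℓ.Prime) (hℓm : ¬ ℓ ∣ m) (hℓS : ℓ ∉ (↑S : Set ℕ)),
          θ (CuspForm.heckeAlgebra.T hℓ hℓm hℓS) = (W.apOfModel ℓ : ZMod p) := by
      rcases hp with h3 | h5
      · obtain ⟨r, hr, hrm, hr3⟩ := hneat' h3
        exact exists_theta_of_eigen_noTors S hmS W.apOfModel h0 (noTors_of_neat hr hrm hr3 hp2) h
      · exact LL.Mazur.exists_theta_of_eigen (by omega) S hmS W.apOfModel h0 h
    exact hcon (residuallyModular_of_theta p W hp2 hΔ S hS hmS θ hθ)
  obtain ⟨A, hA⟩ := Galois.exists_liesOverPrime hq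
  have h8 : ¬ p ∣ 8 * m := fun h => (hq.dvd_mul.mp h).elim (fun h2 => hp2
    ((Nat.prime_dvd_prime_iff_eq hq Nat.prime_two).mp (hq.dvd_of_dvd_pow (n := 3) h2))) hpm
  obtain ⟨m', inst, hdvd, hpm', hcharts⟩ :=
    hasSemiModel (m₀ := 8 * m) hq hA (by omega) h8
  haveI := inst
  haveI : NeZero m' := ⟨fun h => NeZero.ne (p * m') (by rw [h, mul_zero])⟩
  obtain ⟨g, hg⟩ := Wild.exists_lowerRow hq hpm
  obtain ⟨g', hg'⟩ := Wild.exists_lowerRow hq hpm'
  have O : Ordinary.OrdSetup A p m m' g g' := ⟨hA, hg, hg', hp2, hpm, hpm',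
    (dvd_mul_left m 8).trans hdvd, ((dvd_mul_right 2 4).trans ((dvd_mul_right 8 m).trans hdvd) : 2 ∣ m'), hcharts⟩
  haveI := GalRep.charP_residue (A := A) hq hA
  obtain ⟨ℓ, hℓ, hℓS, hℓM, hℓ1, hℓa⟩ :=
    exists_prime_nonEisensteinW p W hp2 hΔ hirr (p * m') S hS
  have hℓN : ¬ ℓ ∣ p * m := fun h => hℓM (h.trans O.dvd_level)
  let l : GoodPrime (p * m) := ⟨⟨ℓ, hℓ⟩, hℓN⟩
  have D : AtP.Input O S W.apOfModel l := by
    refine ⟨?_, hp.imp_right fun h5 => h5.ge, hneat', hmS, hpS, fun θ => ?_, hℓ1, hℓS, hℓa⟩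
    · exact (show 6 ≤ 8 by norm_num).trans
        (Nat.le_of_dvd (Nat.pos_of_ne_zero (NeZero.ne m')) ((dvd_mul_right 8 m).trans hdvd))
    · by_contra hθ
      push Not at hθ
      exact hcon (residuallyModular_of_theta p W hp2 hΔ S hS hmS θ hθ)
  set ρ := (kummerGalois (p * m) p).galois with hρ
  obtain ⟨χ₀, h0, hhecke, hrel₀⟩ := exists_eigenClass p W hp2 hΔ hf h𝔪 hp𝔪 hcong S hS
  obtain ⟨ψ, hψ, hψ0⟩ := exists_fixed_eigenW (S := S) hp2 hΔ h0 ⟨hhecke, hrel₀⟩
  set V := eigenSet p W (p * m) S with hV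
  have hstab : ∀ t : GQ, ∀ x ∈ V, ρ t x ∈ V := fun t x hx =>
    ⟨hx.1.galois t, fun k hk => by
      have hc : t⁻¹ * k * t ∈ eKer p W := fun y => by
        rw [mul_smul, mul_smul, hk, inv_smul_smul]
      conv_rhs => rw [← hx.2 _ hc, ← Module.End.mul_apply, ← map_mul, ← mul_assoc, ← mul_assoc,
        mul_inv_cancel, one_mul, map_mul, Module.End.mul_apply]⟩
  -- the norms vanish
  have hcor : ∀ x : ParHom (p * m) (ZMod p), (∀ l : GoodPrime (p * m), (l : ℕ) ∉ S →
      heckeHomAt l x = W.apOfModel (l : ℕ) • x) → corR O.hg O.hpm x = 0 := fun x hx =>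
    hno _ fun l' hl' => by
      have hne : ¬ (l' : ℕ) ∣ p * m := fun h => (l'.1.2.dvd_mul.mp h).elim
        (fun h1 => hl' (by rw [(Nat.prime_dvd_prime_iff_eq l'.1.2 hq).mp h1]; exact hpS)) l'.2
      have h := congrArg (corR O.hg O.hpm) (hx ⟨l'.1, hne⟩ hl')
      rw [← corL_apply O.hpm O.hg (_ • x), map_zsmul, corL_apply] at h
      exact (corR_heckeHom O.hpm O.hg (goodIndex l') (goodIndex ⟨l'.1, hne⟩) x).symm.trans h
  set L := AtP.atLevel W p (p * m')
  have hζ : zetaQ (p * m') ∈ L := AtP.zetaQ_mem_atLevel W p (p * m')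
  have hfixL : ∀ x ∈ V, ∀ s : GQ, (∀ y ∈ L, s y = y) → ρ s x = x := fun x hx s hs => hx.2 s (by
    rw [← fixingSubgroup_eFld p W, IntermediateField.mem_fixingSubgroup_iff]
    exact fun y hy => hs y (AtP.eFld_le_atLevel W p _ hy))
  have hkey : ∀ x ∈ V, ∀ (K : IntermediateField ℚ (AlgebraicClosure ℚ)) (_ : FiniteDimensional ℚ K)
      (_ : Normal ℚ K) (hK : zetaQ (p * m') ∈ K),
      (∀ [IsDiscreteValuationRing (rBase A K)], Ordinary.GoodAt O.hA hK x 1) →
      ∀ s ∈ A.inertiaSubgroupIn ℚ, ρ s x = omg p s • x := fun x hx K _ _ hK hG s hs =>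
    (AtP.inertia_eq_omega_of_goodAt O hG (hcor x hx.1.hecke)
      (hcor _ fun l hl => Wild.alR_eigen O.hg l (hx.1.hecke l hl)) l hℓ1 hℓa
      (hx.1.hecke l hℓS) hs).trans (AtP.val_nsmul (omg p s) x)
  have hrelV : ∀ x ∈ V, ∀ t : GQ, ρ t (ρ t x) + omg p t • x = trE W p t • ρ t x := fun x hx t => by
    have h := congrArg (ρ t) (hx.1.rel t)
    rw [map_add, map_nsmul, map_nsmul, ← Module.End.mul_apply (ρ t) (ρ t⁻¹), ← map_mul,
      mul_inv_cancel, map_one, Module.End.one_apply, AtP.val_nsmul, AtP.val_nsmul] at h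
    exact h
  have hinj : ∀ {c : ZMod p} {x : ParHom (p * m) (ZMod p)}, c • x = 0 → x ≠ 0 → c = 0 :=
    fun {c x} h hx => by
      by_contra hc
      exact hx (by rw [← one_smul (ZMod p) x, ← inv_mul_cancel₀ hc, mul_smul, h, smul_zero])
  have hρinj : ∀ (t : GQ) {x : ParHom (p * m) (ZMod p)}, x ≠ 0 → ρ t x ≠ 0 := fun t x hx h => hx (by
    have := congrArg (ρ t⁻¹) h
    rwa [_root_.map_zero, ← Module.End.mul_apply, ← map_mul, inv_mul_cancel, map_one,
      Module.End.one_apply] at this)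
  have hdiff : ∀ x ∈ V, ∀ t ∈ A.inertiaSubgroupIn ℚ, ∀ s ∈ A.inertiaSubgroupIn ℚ,
      ρ s (ρ t x - x) = omg p s • (ρ t x - x) := fun x hx t ht => by
    have hd : ρ t x - x ∈ V := sub_mem (hstab t x hx) hx
    refine hkey _ hd L inferInstance inferInstance hζ ?_
    intro _
    obtain ⟨h1, h2⟩ := (Ordinary.mem_powKer_iff O.hg hA).mp (Ordinary.powKer_inertia O.hg hA ht x)
    exact O.goodAt_one_new h1 h2 fun s _ hsL => hfixL _ hd s hsL
  -- the trace on inertia
  have htr : ∀ s ∈ A.inertiaSubgroupIn ℚ, trE W p s = omg p s + 1 := fun s hs => by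
    have h1 := hdiff ψ hψ s hs s hs
    rw [map_sub] at h1
    have h3 : (trE W p s - (omg p s + 1)) • ρ s ψ = 0 := by
      linear_combination (norm := module) h1 - hrelV ψ hψ s
    exact sub_eq_zero.mp (hinj h3 (hρinj s hψ0))
  -- a class fixed by a tame element
  obtain ⟨s₀, hs₀, hω⟩ := Ordinary.exists_inertia_cyc_ne_one hp2 hA
  obtain ⟨y, hy, hy0, hys⟩ : ∃ y ∈ V, y ≠ 0 ∧ ρ s₀ y = y := by
    by_contra hnone
    push Not at hnone
    letI : Module (ZMod p) V :=
      AddCommGroup.zmodModule fun x => Subtype.ext (parHom_nsmul_eq_zero x.1)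
    haveI : Nontrivial V := ⟨⟨⟨ψ, hψ⟩, 0, fun h => hψ0 (congrArg Subtype.val h)⟩⟩
    set c := Ordinary.omegaNat (p := p) s₀
    have hc : (c : ZMod p) = omg p s₀ := ZMod.natCast_zmod_val _
    have hsc : ∀ x ∈ V, ρ s₀ x = (c : ℤ) • x := fun x hx => by
      have hcz : ((c : ℕ) : ℤ) • x = omg p s₀ • x := by
        rw [natCast_zsmul]; exact AtP.val_nsmul (omg p s₀) x
      rw [hcz, ← sub_eq_zero]
      by_contra hne
      refine hnone (ρ s₀ x - omg p s₀ • x) ?_ hne ?_
      · exact sub_mem (hstab s₀ x hx) (hcz ▸ zsmul_mem hx _)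
      · have h1 := hdiff x hx s₀ hs₀ s₀ hs₀
        rw [map_sub] at h1
        rw [map_sub, ← hcz, map_zsmul, hcz, natCast_zsmul,
          show c • ρ s₀ x = omg p s₀ • ρ s₀ x from AtP.val_nsmul _ _]
        linear_combination (norm := module) h1
    obtain ⟨hc1, -⟩ := scalar_of_stableW p W hp2 hΔ hirr ρ V hstab (fun t x hx => hx.1.rel t)
      (σ := s₀) (q := c) (c : ℤ) rfl hsc hc.symm
    exact hω (hc.symm.trans hc1)
  -- it has a trivialisation modulo the uniformiser
  have hend : ∀ (K : IntermediateField ℚ (AlgebraicClosure ℚ)) (_ : FiniteDimensional ℚ K)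
      (_ : Normal ℚ K) (hK : zetaQ (p * m') ∈ K),
      (∀ [IsDiscreteValuationRing (rBase A K)], Ordinary.GoodAt O.hA hK y 1) → False :=
    fun K _ _ hK hG => by
      have h := hkey y hy K inferInstance inferInstance hK hG s₀ hs₀
      rw [hys] at h
      have h2 : (1 - omg p s₀) • y = 0 := by rw [sub_smul, one_smul, ← h, sub_self]
      exact hω (sub_eq_zero.mp (hinj h2 hy0)).symm
  by_cases hwild : ∃ s ∈ A.inertiaSubgroupIn ℚ, omg p s = 1 ∧ s ∉ eKer p W
  · refine hend L inferInstance inferInstance hζ ?_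
    intro _
    refine AtP.goodAt_one_wild D hy.1.hecke
      (AtP.exists_wildAutW W p (p * m') hΔ hW hp2 hflat hA htr hwild rfl hpm' hcharts)
      (fun s _ hsL => hfixL y hy s hsL) fun τ hτ hτω => ?_
    have h := hrelV y hy τ
    rw [htr τ hτ, hτω, one_smul, one_add_one_eq_two] at h
    rw [h, two_smul, two_nsmul]
  · push Not at hwild
    haveI := WildModel.finite_adjoin_zetaQ (p * m')
    haveI := WildModel.normal_adjoin_zetaQ (p * m')
    refine hend _ inferInstance inferInstance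
      (IntermediateField.mem_adjoin_simple_self ℚ (zetaQ (p * m'))) ?_
    intro _
    refine AtP.goodAt_one_unit D hy.1.hecke le_rfl fun s hs hsL => hy.2 s (hwild s hs ?_)
    rw [omg_eq_one_iff]
    intro z hz
    have hμ := isPrimitiveRoot_mu (M := p * m') (m := m') hq rfl
    obtain ⟨i, -, rfl⟩ := hμ.eq_pow_of_pow_eq_one hz
    exact hsL _ (pow_mem (pow_mem (IntermediateField.mem_adjoin_simple_self ℚ _) m') i)

end Fermat.Agent.R59
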