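import Fermat.Agent.R59.Mazur.End
import Fermat.Agent.R59.Mazur.NonEis
import Fermat.Agent.R59.ThreeTW
import Fermat.Agent.Density.FrobeniusCyclic
import Fermat.Agent.Newform.Independence

/-!
# S59: a good prime `r ≡ 2 (mod 3)` with `a_r` prime to three

An element of determinant `-1` and nonzero trace exists as otherwise the determinant one part of
the image would be commutative, hence have an eigenline.
-/

set_option autoImplicit false
set_option linter.style.haveILetI false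
set_option linter.unusedSectionVars false

noncomputable section

namespace Fermat.Agent.R59

open WeierstrassCurve WeierstrassCurve.Affine.Point
open scoped WeierstrassCurve.Affine
open Fermat.Agent.Galois (GQ)
open Fermat.Agent.GalRep.Semistable (conjQ conjQ_mul_self)

local notation "Qbar" => AlgebraicClosure ℚ

/-- Commuting matrices of size two over an algebraically closed field share an eigenvector. -/
theorem exists_common_eigenvec {K : Type*} [Field K] [IsAlgClosed K] {X : Type*}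
    (A : X → Matrix (Fin 2) (Fin 2) K) (hA : ∀ x y, A x * A y = A y * A x) :
    ∃ v : Fin 2 → K, v ≠ 0 ∧ ∀ x, ∃ c : K, Matrix.mulVec (A x) v = c • v := by
  classical
  by_cases hs : ∀ x, ∃ c : K, A x = c • 1
  · exact ⟨![1, 0], fun h => one_ne_zero (congrFun h 0), fun x => by
      obtain ⟨c, hc⟩ := hs x
      exact ⟨c, by rw [hc, Matrix.smul_mulVec, Matrix.one_mulVec]⟩⟩
  push Not at hs
  obtain ⟨x₀, hx₀⟩ := hs
  obtain ⟨μ, hμ⟩ := Module.End.exists_eigenvalue (Matrix.toLin' (A x₀))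
  set E := Module.End.eigenspace (Matrix.toLin' (A x₀)) μ
  obtain ⟨v, hv, hv0⟩ := Submodule.exists_mem_ne_zero_of_ne_bot (Module.End.hasEigenvalue_iff.mp hμ)
  have hE : Module.finrank K E = 1 := by
    have h2 : Module.finrank K (Fin 2 → K) = 2 := by simp
    have hne : E ≠ ⊤ := fun h => hx₀ μ (Matrix.toLin'.injective (LinearMap.ext fun w => by
      rw [Module.End.mem_eigenspace_iff.mp (h ▸ Submodule.mem_top : w ∈ E)]
      simp))
    have hlt := Submodule.finrank_lt (lt_top_iff_ne_top.mpr hne).ne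
    have h0 : Module.finrank K E ≠ 0 := fun h =>
      Module.End.hasEigenvalue_iff.mp hμ (Submodule.finrank_eq_zero.mp h)
    omega
  refine ⟨v, hv0, fun x => ?_⟩
  have hxv : Matrix.mulVec (A x) v ∈ E := by
    rw [Module.End.mem_eigenspace_iff] at hv ⊢
    rw [Matrix.toLin'_apply] at hv ⊢
    rw [Matrix.mulVec_mulVec, hA, ← Matrix.mulVec_mulVec, hv, Matrix.mulVec_smul]
  obtain ⟨c, hc⟩ := exists_smul_eq_of_finrank_eq_one hE (x := (⟨v, hv⟩ : E))
    (fun h => hv0 (congrArg Subtype.val h)) ⟨_, hxv⟩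
  exact ⟨c, (congrArg Subtype.val hc).symm⟩

theorem zmod_three_cases : ∀ z : ZMod 3, z ≠ 0 → z = 1 ∨ z = -1 := by decide

theorem mod_three_of_natCast_eq {n : ℕ} (h : (n : ZMod 3) = -1) : n % 3 = 2 := by
  have h' := congrArg ZMod.val h
  rw [ZMod.val_natCast] at h'
  rw [h']
  rfl

theorem zmod_three_neg_one_ne_one : (-1 : ZMod 3) ≠ 1 := by decide

variable (W : WeierstrassCurve ℤ)

set_option quotPrecheck false in
local notation "ρ₃" => galoisRepModuleEnd (K := Qbar) ℚ (W.map (Int.castRingHom ℚ)).toAffine 3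

/-- Some element of determinant `-1` has nonzero trace on `W[3]`. -/
theorem exists_omg_neg_trE_ne [Fact (Nat.Prime 3)] (hΔ : W.Δ ≠ 0) (hW : W.IsSemistableModel)
    (hirr : W.ModRepIsIrreducible 3) : ∃ g : GQ, omg 3 g = -1 ∧ trE W 3 g ≠ 0 := by
  classical
  haveI := isElliptic_generic W hΔ
  have hp2 : (3 : ℕ) ≠ 2 := by norm_num
  by_contra hcon
  push Not at hcon
  have hinv : ∀ g : GQ, omg 3 g = -1 → ρ₃ g * ρ₃ g = 1 := fun g hg => by
    have h := eRel 3 W hp2 hΔ g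
    rw [hg, hcon g hg, zero_smul, neg_smul, one_smul, add_neg_eq_zero] at h
    nth_rw 2 [h]
    rw [← map_mul, mul_inv_cancel, map_one]
  set c := conjQ
  have hc := omg_conjQ 3 hp2
  let H : Subgroup GQ :=
    { carrier := {g | omg 3 g = 1}
      one_mem' := omg_one 3
      mul_mem' := fun {g h} hg hh => by
        show omg 3 (g * h) = 1
        rw [omg_mul, show omg 3 g = 1 from hg, show omg 3 h = 1 from hh, one_mul]
      inv_mem' := fun {g} hg => by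
        show omg 3 g⁻¹ = 1
        have h1 := omg_mul 3 g g⁻¹
        rwa [mul_inv_cancel, omg_one, show omg 3 g = 1 from hg, one_mul, eq_comm] at h1 }
  have hH : H.index = 2 := by
    rw [Subgroup.index_eq_two_iff]
    refine ⟨c, fun b => ?_⟩
    have hne : (-1 : ZMod 3) ≠ 1 := zmod_three_neg_one_ne_one
    show Xor' (omg 3 (b * c) = 1) (omg 3 b = 1)
    rw [omg_mul, hc]
    rcases zmod_three_cases _ (omg_ne_zero 3 b) with h | h
    · exact Or.inr ⟨h, by rw [h, one_mul]; exact hne⟩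
    · exact Or.inl ⟨by rw [h]; norm_num, by rw [h]; exact hne⟩
  have hconj : ∀ h ∈ H, ρ₃ c * ρ₃ h * ρ₃ c = ρ₃ h⁻¹ := fun h hh => by
    have h1 := hinv (c * h) (by rw [omg_mul, hc, show omg 3 h = 1 from hh, mul_one])
    rw [map_mul] at h1
    calc ρ₃ c * ρ₃ h * ρ₃ c = ρ₃ c * ρ₃ h * ρ₃ c * (ρ₃ h * ρ₃ h⁻¹) := by
          rw [← map_mul ρ₃ h, mul_inv_cancel, map_one, mul_one]
      _ = (ρ₃ c * ρ₃ h * (ρ₃ c * ρ₃ h)) * ρ₃ h⁻¹ := by noncomm_ring
      _ = ρ₃ h⁻¹ := by rw [h1, one_mul]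
  have hcomm : ∀ h₁ ∈ H, ∀ h₂ ∈ H, ρ₃ h₁ * ρ₃ h₂ = ρ₃ h₂ * ρ₃ h₁ := fun h₁ hh₁ h₂ hh₂ => by
    have hcc : ρ₃ c * ρ₃ c = 1 := by rw [← map_mul, conjQ_mul_self, map_one]
    have e : ρ₃ (h₁ * h₂)⁻¹ = ρ₃ (h₂ * h₁)⁻¹ := by
      calc ρ₃ (h₁ * h₂)⁻¹ = ρ₃ c * ρ₃ (h₁ * h₂) * ρ₃ c := (hconj _ (mul_mem hh₁ hh₂)).symm
        _ = ρ₃ c * ρ₃ h₁ * (ρ₃ c * ρ₃ c) * ρ₃ h₂ * ρ₃ c := by
            rw [hcc, mul_one, map_mul]; noncomm_ring
        _ = ρ₃ h₁⁻¹ * ρ₃ h₂⁻¹ := by rw [← hconj _ hh₁, ← hconj _ hh₂]; noncomm_ring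
        _ = ρ₃ (h₂ * h₁)⁻¹ := by rw [← map_mul, mul_inv_rev]
    calc ρ₃ h₁ * ρ₃ h₂ = ρ₃ (h₁ * h₂) * (ρ₃ (h₂ * h₁)⁻¹ * ρ₃ (h₂ * h₁)) := by
          rw [← map_mul _ (h₂ * h₁)⁻¹, inv_mul_cancel, map_one, mul_one, map_mul]
      _ = ρ₃ (h₂ * h₁) := by
          rw [← mul_assoc, ← e, ← map_mul ρ₃ (h₁ * h₂), mul_inv_cancel, map_one, one_mul]
      _ = _ := map_mul _ _ _
  haveI : Module.Finite (ZMod 3) (ETors W 3) :=
    Module.finite_of_finrank_eq_succ (finrank_eTors 3 W)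
  let b := Module.finBasisOfFinrankEq (ZMod 3) (ETors W 3) (finrank_eTors 3 W)
  set ψ := algebraMap (ZMod 3) (AlgebraicClosure (ZMod 3))
  obtain ⟨v, hv0, hv⟩ := exists_common_eigenvec
    (fun h : H => (LinearMap.toMatrixAlgEquiv b (ρ₃ (h : GQ))).map ψ) fun x y => by
      rw [← Matrix.map_mul, ← Matrix.map_mul, ← map_mul (LinearMap.toMatrixAlgEquiv b),
        hcomm _ x.2 _ y.2, map_mul (LinearMap.toMatrixAlgEquiv b)]
  exact hv0 (torsRep_no_line W hΔ hW (Or.inl rfl) hirr b ψ H (Or.inr hH) v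
    fun σ hσ => hv ⟨σ, hσ⟩)

/-- A good prime `r ≡ 2 (mod 3)` outside a finite set with `a_r` prime to three. -/
theorem exists_neat_prime [Fact (Nat.Prime 3)] (hΔ : W.Δ ≠ 0) (hW : W.IsSemistableModel)
    (hirr : W.ModRepIsIrreducible 3) (bad : Finset ℕ) :
    ∃ r : ℕ, r.Prime ∧ r ∉ bad ∧ r ≠ 3 ∧ ¬ (r : ℤ) ∣ W.Δ ∧ r % 3 = 2 ∧
      ¬ (3 : ℤ) ∣ W.apOfModel r := by
  classical
  haveI := isElliptic_generic W hΔ
  have hp2 : (3 : ℕ) ≠ 2 := by norm_num
  obtain ⟨g, hgω, hgt⟩ := exists_omg_neg_trE_ne W hΔ hW hirr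
  haveI := finite_eFld 3 W
  obtain ⟨r, hr, hbad, A, hA, σ, hσ, -, b, hb⟩ :=
    Density.exists_frobenius_cyclic (eFld 3 W) (bad ∪ insert 3 W.Δ.natAbs.primeFactors) g
  simp only [Finset.mem_union, Finset.mem_insert, not_or] at hbad
  obtain ⟨hbad, hr3, hΔr⟩ := hbad
  have hgood : ¬ (r : ℤ) ∣ W.Δ := fun h =>
    hΔr (Nat.mem_primeFactors.mpr ⟨hr, Int.natCast_dvd.mp h, Int.natAbs_ne_zero.mpr hΔ⟩)
  obtain ⟨hta, htω⟩ := trE_frobenius 3 W hp2 hΔ hr hgood hr3 hA hσ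
  have hker : (σ ^ b)⁻¹ * g ∈ eKer 3 W := (fix_eFld_iff 3 W).mp fun y hy => by
    rw [AlgEquiv.mul_apply, ← hb y hy]
    exact (σ ^ b).symm_apply_apply y
  have hρ : ρ₃ g = ρ₃ σ ^ b := by
    rw [← map_pow]
    conv_lhs => rw [← mul_inv_cancel_left (σ ^ b) g, map_mul,
      show ρ₃ ((σ ^ b)⁻¹ * g) = 1 from LinearMap.ext fun x => hker x, mul_one]
  have hω : omg 3 σ ^ b = -1 := by
    rw [← hgω, ← det_eq_omg 3 W hp2 hΔ g, hρ, map_pow, det_eq_omg 3 W hp2 hΔ]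
  have hσω : omg 3 σ = -1 := by
    refine (zmod_three_cases _ (omg_ne_zero 3 σ)).resolve_left fun h => ?_
    rw [h, one_pow] at hω
    exact zmod_three_neg_one_ne_one hω.symm
  refine ⟨r, hr, hbad, hr3, hgood, ?_, fun h => hgt ?_⟩
  · exact mod_three_of_natCast_eq (htω ▸ hσω)
  · have ht : trE W 3 σ = 0 := by
      rw [hta]
      exact (ZMod.intCast_zmod_eq_zero_iff_dvd _ 3).mpr h
    have hsq : ρ₃ σ * ρ₃ σ = 1 := by
      have h1 := eRel 3 W hp2 hΔ σ
      rw [hσω, ht, zero_smul, neg_smul, one_smul, add_neg_eq_zero] at h1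
      nth_rw 2 [h1]
      rw [← map_mul, mul_inv_cancel, map_one]
    rcases Nat.even_or_odd' b with ⟨k, rfl | rfl⟩
    · rw [pow_mul, pow_two, hσω, neg_one_mul, neg_neg, one_pow] at hω
      exact absurd hω.symm zmod_three_neg_one_ne_one
    · rw [trE, galoisTrace_def, hρ, pow_add, pow_mul, pow_two, hsq, one_pow, one_mul, pow_one,
        ← galoisTrace_def]
      exact ht

end Fermat.Agent.R59
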