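/-
S59: the auxiliary prime and the passage to a multiple of the level.

Justification: for `p = 3` Chebotarev applied to an element of the image of determinant `-1` and
nonzero trace (absolute irreducibility on the index two subgroup); a system of level `M` gives one
of level `M r` by `Newform.exists_eigenform_of_ringHom`.
-/
import Fermat.Agent.R59.Lower.AuxPrime
import Fermat.Agent.R59.Lower.Defs

set_option autoImplicit false

namespace Fermat.Agent.R59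

open WeierstrassCurve

/-- The auxiliary primes. -/
theorem exists_aux_primes (W : WeierstrassCurve ℤ) (hΔ : W.Δ ≠ 0) (hW : W.IsSemistableModel)
    {p : ℕ} [Fact p.Prime] (hp : p = 3 ∨ p = 5) (hirr : W.ModRepIsIrreducible p) (M : ℕ)
    (hM : 0 < M) (hp2 : ¬ p ^ 2 ∣ M) (h3 : ∀ q : ℕ, q.Prime → q ≠ p → ¬ q ^ 3 ∣ M)
    (hres : W.IsResiduallyModularOfLevel p M) :
    ∃ (R : Finset ℕ) (M' : ℕ), 0 < M' ∧ ¬ p ^ 2 ∣ M' ∧
      (∀ q : ℕ, q.Prime → q ≠ p → ¬ q ^ 3 ∣ M') ∧ W.IsResiduallyModularOfLevel p M' ∧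
      (∀ r ∈ R, r.Prime ∧ r ≠ p ∧ r ∣ M' ∧ ¬ r ^ 2 ∣ M' ∧ ¬ (r : ℤ) ∣ W.Δ ∧ ¬ r ≡ 1 [MOD p] ∧
        ¬ (p : ℤ) ∣ W.apOfModel r ^ 2 - ((r : ℤ) + 1) ^ 2) ∧
      (p = 3 → ∃ r ∈ R, r % 3 = 2 ∧ ¬ (3 : ℤ) ∣ W.apOfModel r) := by
  classical
  rcases hp with rfl | rfl
  swap
  · exact ⟨∅, M, hM, hp2, h3, hres, by simp, fun h => absurd h (by norm_num)⟩
  obtain ⟨r, hr, hrM, hr3, hΔr, hr2, har⟩ := exists_neat_prime W hΔ hW hirr M.primeFactors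
  replace hrM : ¬ r ∣ M := fun h => hrM (Nat.mem_primeFactors.mpr ⟨hr, h, hM.ne'⟩)
  haveI : NeZero M := ⟨hM.ne'⟩
  haveI : NeZero (M * r) := ⟨Nat.mul_ne_zero hM.ne' hr.ne_zero⟩
  obtain ⟨f, 𝔪, hf, h𝔪, hp𝔪, hcong⟩ := hres
  obtain ⟨g, hg, hgf⟩ := Newform.exists_eigenform_of_dvd (dvd_mul_right M r) hf
  have hsq : ∀ q k : ℕ, q.Prime → ¬ q ^ k ∣ M → 1 < k → ¬ q ^ k ∣ M * r := by
    intro q k hq hk hk1 h
    by_cases hqr : q = r
    · subst hqr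
      refine hrM ((dvd_pow_self q (show k - 1 ≠ 0 by omega)).trans
        (Nat.dvd_of_mul_dvd_mul_right hq.pos ?_))
      rwa [← pow_succ, show k - 1 + 1 = k by omega]
    · exact hk ((Nat.Coprime.pow_left k ((Nat.coprime_primes hq hr).mpr hqr)).dvd_of_dvd_mul_right h)
  refine ⟨{r}, M * r, Nat.mul_pos hM hr.pos, hsq 3 2 Nat.prime_three hp2 one_lt_two,
    fun q hq hq3 => hsq q 3 hq (h3 q hq hq3) (by norm_num), ⟨g, 𝔪, hg, h𝔪, hp𝔪,
      fun ℓ hℓ hgood hℓC hℓp => ?_⟩, fun r' hr' => ?_, fun _ => ⟨r, by simp, hr2, har⟩⟩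
  · obtain ⟨a, ha, ham⟩ := hcong ℓ hℓ hgood (fun h => hℓC (h.mul_right r)) hℓp
    exact ⟨a, ha.trans (hgf ℓ hℓ hℓC).symm, ham⟩
  · obtain rfl := Finset.mem_singleton.mp hr'
    refine ⟨hr, hr3, dvd_mul_left r' M, fun h => hrM (Nat.dvd_of_mul_dvd_mul_right hr.pos ?_),
      hΔr, ?_, ?_⟩
    · rwa [← pow_two]
    · rw [Nat.ModEq, hr2]; norm_num
    · intro h
      have h0 : (3 : ℤ) ∣ ((r' : ℤ) + 1) ^ 2 :=
        dvd_pow (by omega) two_ne_zero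
      refine har (Int.prime_three.dvd_of_dvd_pow (n := 2) ?_)
      exact (dvd_sub_left h0).mp (by exact_mod_cast h)

end Fermat.Agent.R59
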