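/-
S59, unit F1: Mazur's principle at an odd `l ≠ p` (`l ≢ 1` or Frobenius not scalar).

Mazur's principle (`LL/Mazur` generalised; `R59/Mazur`): for `p` prime to the level with the neat
prime for `p = 3`; when `p` divides it exactly the places over infinity are handled at the cusps
(`R59/Mazur/PLevel`).
-/
import Fermat.Agent.R59.Lower.Defs
import Fermat.Agent.R59.Mazur.Three.Main
import Fermat.Agent.R59.Mazur.PLevel.Main
import Fermat.Agent.R59.TateW.TorsionUnr

set_option autoImplicit false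

namespace Fermat.Agent.R59

open WeierstrassCurve

/-- Mazur's principle at an odd prime when `p` does not divide the level. -/
theorem lower_mazur_odd_of_not_dvd (W : WeierstrassCurve ℤ) (hΔ : W.Δ ≠ 0)
    (hW : W.IsSemistableModel) {p : ℕ} [Fact p.Prime] (hp : p = 3 ∨ p = 5)
    (hirr : W.ModRepIsIrreducible p) {l m : ℕ} (hl : l.Prime) (hl2 : l ≠ 2) (hlp : l ≠ p)
    (hsq : Squarefree (l * m)) (hunr : p ∣ padicValInt l W.Δ) (hpm : ¬ p ∣ m)
    (hneat : NeatFor W p m)
    (hcase : (l : ZMod p) ≠ 1 ∨ ∀ A : ValuationSubring (AlgebraicClosure ℚ),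
      A.LiesOverPrime l → DecompNonScalar W p A)
    (hres : W.IsResiduallyModularOfLevel p (l * m)) :
    W.IsResiduallyModularOfLevel p m := by
  have hm : 0 < m := Nat.pos_of_ne_zero (right_ne_zero_of_mul hsq.ne_zero)
  have hlm : ¬ l ∣ m := fun h => hl.not_isUnit (Nat.isUnit_iff.mpr
    (Nat.isUnit_iff.mp (hsq l (mul_dvd_mul_left l h))))
  have hp2 : p ≠ 2 := by omega
  refine mazur_lower_small hp W hΔ hirr hm hl hl2 hlp hlm hpm (fun h => ?_) hres ?_ hcase
  · obtain ⟨r, hr, hrm, hr3, -⟩ := hneat h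
    exact ⟨r, hr, hrm, hr3⟩
  · intro A hA σ hσ x
    refine Subtype.ext ?_
    refine torsion_smul_eq_of_dvd W hΔ hW hp2 hl hlp hunr hA hσ ?_
    exact (natCast_zsmul _ p).symm.trans ((Submodule.mem_torsionBy_iff _ _).1 x.2)

/-- Mazur's principle at an odd prime. -/
theorem lower_mazur_odd (W : WeierstrassCurve ℤ) (hΔ : W.Δ ≠ 0) (hW : W.IsSemistableModel) {p : ℕ}
    [Fact p.Prime] (hp : p = 3 ∨ p = 5) (hirr : W.ModRepIsIrreducible p) {l m : ℕ} (hl : l.Prime)
    (hl2 : l ≠ 2) (hlp : l ≠ p) (hsq : Squarefree (l * m)) (hunr : p ∣ padicValInt l W.Δ)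
    (hpm : p ∣ m → ¬ p ∣ padicValInt p W.Δ) (hneat : NeatFor W p m)
    (hcase : (l : ZMod p) ≠ 1 ∨ ∀ A : ValuationSubring (AlgebraicClosure ℚ),
      A.LiesOverPrime l → DecompNonScalar W p A)
    (hres : W.IsResiduallyModularOfLevel p (l * m)) :
    W.IsResiduallyModularOfLevel p m := by
  by_cases hdvd : p ∣ m
  · have hm : 0 < m := Nat.pos_of_ne_zero (right_ne_zero_of_mul hsq.ne_zero)
    have hlm : ¬ l ∣ m := fun h => hl.not_isUnit (Nat.isUnit_iff.mpr
      (Nat.isUnit_iff.mp (hsq l (mul_dvd_mul_left l h))))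
    have hpp : ¬ p * p ∣ m := fun h =>
      (Fact.out : p.Prime).not_isUnit (hsq p (h.mul_left l))
    refine mazur_lower_pLevel hp W hΔ hirr hm hl hl2 hlp hlm hdvd hpp (fun h => ?_) hres ?_ hcase
    · obtain ⟨r, hr, hrm, hr3, -⟩ := hneat h
      exact ⟨r, hr, hrm, hr3⟩
    · intro A hA σ hσ x
      refine Subtype.ext ?_
      refine torsion_smul_eq_of_dvd W hΔ hW (by omega) hl hlp hunr hA hσ ?_
      exact (natCast_zsmul _ p).symm.trans ((Submodule.mem_torsionBy_iff _ _).1 x.2)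
  · exact lower_mazur_odd_of_not_dvd W hΔ hW hp hirr hl hl2 hlp hsq hunr hdvd hneat hcase hres

end Fermat.Agent.R59
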