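/-
S59, unit F2: a prime `l ≡ 1 (mod p)` with scalar Frobenius, once Mazur's principle is exhausted.

Justification: the argument of `LL/Patched` (characters of order `p` at the scalar primes), with
`five_le` weakened and, when `p` divides the level, the ordinary condition in place of flatness.
The other primes to be lowered are of the same kind or absent (`hothers`).
-/
import Fermat.Agent.R59.Lower.Defs
import Fermat.Agent.R59.Scalar.FromW
import Fermat.Agent.R59.Scalar.Patched

set_option autoImplicit false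

namespace Fermat.Agent.R59

open WeierstrassCurve

/-- Lowering at a scalar prime, all other removable primes being scalar too. -/
theorem lower_scalar (W : WeierstrassCurve ℤ) (hΔ : W.Δ ≠ 0) (hW : W.IsSemistableModel) {p : ℕ}
    [Fact p.Prime] (hp : p = 3 ∨ p = 5) (hirr : W.ModRepIsIrreducible p) {l m : ℕ} (hl : l.Prime)
    (hlp : l ≠ p) (hsq : Squarefree (l * m)) (hunr : p ∣ padicValInt l W.Δ)
    (hpm : p ∣ m → ¬ p ∣ padicValInt p W.Δ) (hneat : NeatFor W p m) (R : Finset ℕ)
    (hR : ∀ r ∈ R, r.Prime ∧ r ≠ p ∧ ¬ (r : ℤ) ∣ W.Δ ∧ ¬ r ≡ 1 [MOD p] ∧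
      ¬ (p : ℤ) ∣ W.apOfModel r ^ 2 - ((r : ℤ) + 1) ^ 2)
    (hothers : ∀ l' : ℕ, l'.Prime → l' ∣ l * m → l' ∉ R → p ∣ padicValInt l' W.Δ →
      l' ≠ p ∧ (l' : ZMod p) = 1 ∧ ∃ A : ValuationSubring (AlgebraicClosure ℚ),
        A.LiesOverPrime l' ∧ ¬ DecompNonScalar W p A)
    (hl1 : (l : ZMod p) = 1) (hscalar : ∃ A : ValuationSubring (AlgebraicClosure ℚ),
      A.LiesOverPrime l ∧ ¬ DecompNonScalar W p A)
    (hres : W.IsResiduallyModularOfLevel p (l * m)) :
    W.IsResiduallyModularOfLevel p m := by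
  haveI : NeZero (l * m) := ⟨hsq.ne_zero⟩
  by_contra hnot
  obtain ⟨O, _, _, _, _, _, _, _, _, ρbar, S, sig, aux, a, H⟩ :=
    Scalar.exists_setting W hΔ hW hp hirr hl hlp hsq hunr hpm hneat R hR hothers hl1 hres hnot
  exact Scalar.false_of_setting H

end Fermat.Agent.R59
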