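/-
S59, unit F1(b): Mazur's principle at `2`, which is never `1` modulo `p`.
-/
import Fermat.Agent.R59.Lower.Defs
import Fermat.Agent.R59.Mazur.Two.Inf
import Fermat.Agent.R59.TateW.TorsionUnr

set_option autoImplicit false

namespace Fermat.Agent.R59

open WeierstrassCurve

/-- Mazur's principle at `2`, given the divisibility over infinity when `p` divides the level of the
model. -/
theorem lower_mazur_two_of_inf (W : WeierstrassCurve ℤ) (hΔ : W.Δ ≠ 0) (hW : W.IsSemistableModel)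
    {p : ℕ} [Fact p.Prime] [NeZero p] [Fact (Nat.Prime 2)] (hp : p = 3 ∨ p = 5)
    (hirr : W.ModRepIsIrreducible p) {m : ℕ} [NeZero m] (hsq : Squarefree (2 * m))
    (hunr : p ∣ padicValInt 2 W.Δ) (hneat : NeatFor W p m)
    (hres : W.IsResiduallyModularOfLevel p (2 * m))
    (hP : ∀ A : ValuationSubring (AlgebraicClosure ℚ), A.LiesOverPrime 2 →
      ¬ (p = 5 ∧ ¬ p ∣ levelTwo p m) → RedOrdInfDvd A p 2 m) :
    W.IsResiduallyModularOfLevel p m := by
  have hm2 : ¬ 2 ∣ m := fun h => Nat.prime_two.not_isUnit (hsq 2 (mul_dvd_mul_left 2 h))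
  refine mazur_lower_at_two hp W hΔ hirr (hsq.squarefree_of_dvd (dvd_mul_left m 2)) hm2
    (fun h => ?_) hres ?_ hP
  · obtain ⟨r, hr, hrm, hr3, -⟩ := hneat h
    exact ⟨r, hr, hrm, hr3⟩
  · intro A hA σ hσ x
    refine Subtype.ext ?_
    refine torsion_smul_eq_of_dvd W hΔ hW (by omega) Nat.prime_two (by omega) hunr hA hσ ?_
    exact (natCast_zsmul _ p).symm.trans ((Submodule.mem_torsionBy_iff _ _).1 x.2)

/-- Mazur's principle at `2`. -/
theorem lower_mazur_two (W : WeierstrassCurve ℤ) (hΔ : W.Δ ≠ 0) (hW : W.IsSemistableModel) {p : ℕ}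
    [Fact p.Prime] (hp : p = 3 ∨ p = 5) (hirr : W.ModRepIsIrreducible p) {m : ℕ}
    (hsq : Squarefree (2 * m)) (hunr : p ∣ padicValInt 2 W.Δ)
    (hpm : p ∣ m → ¬ p ∣ padicValInt p W.Δ) (hneat : NeatFor W p m)
    (hres : W.IsResiduallyModularOfLevel p (2 * m)) :
    W.IsResiduallyModularOfLevel p m := by
  haveI : NeZero p := ⟨(Fact.out : p.Prime).ne_zero⟩
  haveI : Fact (Nat.Prime 2) := ⟨Nat.prime_two⟩
  haveI : NeZero m := ⟨right_ne_zero_of_mul hsq.ne_zero⟩
  refine lower_mazur_two_of_inf W hΔ hW hp hirr hsq hunr hneat hres fun A hA h => ?_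
  refine redOrdInfDvd_two hA hp (hsq.squarefree_of_dvd (dvd_mul_left m 2))
    (fun h' => Nat.prime_two.not_isUnit (hsq 2 (mul_dvd_mul_left 2 h'))) (fun h' => ?_) h
  obtain ⟨r, hr, hrm, hr3, -⟩ := hneat h'
  exact ⟨r, hr, hrm, hr3⟩

end Fermat.Agent.R59
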